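import Fermat.Agent.EC.Multiplicative.Torsion
import Fermat.Agent.EC.Reduction.GoodPrime
import Mathlib.NumberTheory.Padics.PadicVal.Basic

/-!
# Multiplicative primes of integral equations

Inertia on torsion at the places of `AlgebraicClosure ℚ` over a multiplicative prime `q` of an
integral equation: it is unipotent away from `q`, and trivial on `E[n]` for odd `n` prime to `q`
dividing `v_q(Δ)`.
-/

set_option autoImplicit false

open WeierstrassCurve WeierstrassCurve.Affine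
open Fermat.Agent.Arith Fermat.Agent.EC.Reduction

namespace Fermat.Agent.EC.Multiplicative

local notation "Q̄" => AlgebraicClosure ℚ

variable {A : ValuationSubring Q̄} {q : ℕ} {W : WeierstrassCurve ℤ}

/-- The discriminant over `ℚ̄` is the integer `Δ`. -/
lemma Δ_qbar (W : WeierstrassCurve ℤ) :
    ((W.map (Int.castRingHom ℚ))⁄Q̄).toAffine.Δ = (W.Δ : Q̄) := by
  show ((W.map (Int.castRingHom ℚ)).map (algebraMap ℚ Q̄)).Δ = _
  rw [map_Δ, map_Δ]
  simp

/-- The valuation of an integer is the corresponding power of that of `q`. -/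
lemma valuation_intCast (hA : A.LiesOverPrime q) (hq : q.Prime) {m : ℤ} (hm : m ≠ 0) :
    A.valuation (m : Q̄) = A.valuation (q : Q̄) ^ padicValInt q m := by
  have := Fact.mk hq
  obtain ⟨u, hu⟩ := padicValInt_dvd (p := q) m
  have hnd : ¬ (q : ℤ) ∣ u := by
    intro hd
    have h1 : (q : ℤ) ^ (padicValInt q m + 1) ∣ m := by
      rw [pow_succ]
      nth_rw 2 [hu]
      exact mul_dvd_mul_left _ hd
    exact ((padicValInt_dvd_iff _ m).mp h1).elim hm (Nat.not_succ_le_self _)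
  have hu1 : A.valuation (u : Q̄) = 1 :=
    le_antisymm ((A.valuation_le_one_iff _).mpr (intCast_mem A u))
      (not_lt.mp fun h => hnd ((intCast_mem_nonunits_iff hA hq u).mp h))
  nth_rw 1 [hu]
  push_cast
  rw [map_mul, map_pow, hu1, mul_one]

/-- `q` lies in the maximal ideal of a place over `q`. -/
lemma valuation_q_lt_one (hA : A.LiesOverPrime q) : A.valuation (q : Q̄) < 1 := hA

/-- `q` has nonzero valuation. -/
lemma valuation_q_pos (hq : q.Prime) : 0 < A.valuation (q : Q̄) :=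
  zero_lt_iff.mpr ((A.valuation.ne_zero_iff).mpr (Nat.cast_ne_zero.mpr hq.ne_zero))

/-- The exact node of an integral equation at a prime of multiplicative reduction. -/
lemma exists_node_int (hA : A.LiesOverPrime q) (hq : q.Prime) (hΔ0 : W.Δ ≠ 0)
    (hΔ : (q : ℤ) ∣ W.Δ) (hc₄ : ¬ (q : ℤ) ∣ W.c₄) :
    ∃ N : Node A ((W.map (Int.castRingHom ℚ))⁄Q̄)
        (W.map (Int.castRingHom (IsLocalRing.ResidueField A))),
      A.valuation N.c = A.valuation (q : Q̄) ^ padicValInt q W.Δ := by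
  have hc : (W.map (Int.castRingHom (IsLocalRing.ResidueField A))).c₄ ≠ 0 := by
    rw [map_c₄]
    exact fun e => hc₄ ((Arith.intCast_residue_eq_zero_iff hA hq _).mp e)
  have hd : (W.map (Int.castRingHom (IsLocalRing.ResidueField A))).Δ = 0 := by
    rw [map_Δ]
    exact (Arith.intCast_residue_eq_zero_iff hA hq _).mpr hΔ
  obtain ⟨N, hN⟩ := exists_node (reducesTo_int W A) hc hd
    (by rw [Δ_qbar]; exact Int.cast_ne_zero.mpr hΔ0)
  exact ⟨N, by rw [hN, Δ_qbar, valuation_intCast hA hq hΔ0]⟩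

/-- At a semistable place inertia moves every point inside its component. -/
theorem inE0_smul_sub_of_semistable (hA : A.LiesOverPrime q) (hq : q.Prime) (hΔ0 : W.Δ ≠ 0)
    (hss : ¬ ((q : ℤ) ∣ W.c₄ ∧ (q : ℤ) ∣ W.Δ)) {σ : Q̄ ≃ₐ[ℚ] Q̄}
    (hσ : σ ∈ A.inertiaSubgroupIn ℚ) (P : ((W.map (Int.castRingHom ℚ))⁄Q̄).Point) :
    InE0 A (W.map (Int.castRingHom (IsLocalRing.ResidueField A))) (σ • P - P) := by
  by_cases hd : (q : ℤ) ∣ W.Δ
  · classical
    obtain ⟨N, -⟩ := exists_node_int hA hq hΔ0 hd fun hc => hss ⟨hc, hd⟩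
    exact N.inE0_smul_sub (Reduction.res_inertia hσ).1 (Reduction.res_inertia hσ).2 P
  · exact inE0_of_good hA hq hd _

/-- Away from the torsion order inertia is unipotent at a semistable place. -/
theorem smul_sub_smul_sub_of_semistable (hA : A.LiesOverPrime q) (hq : q.Prime) (hΔ0 : W.Δ ≠ 0)
    (hss : ¬ ((q : ℤ) ∣ W.c₄ ∧ (q : ℤ) ∣ W.Δ)) {σ : Q̄ ≃ₐ[ℚ] Q̄}
    (hσ : σ ∈ A.inertiaSubgroupIn ℚ) {n : ℕ} (hn : ¬ q ∣ n)
    {P : ((W.map (Int.castRingHom ℚ))⁄Q̄).Point} (h' : n • P = 0) :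
    σ • (σ • P - P) = σ • P - P :=
  smul_eq_self_of_inE0 W hA hq hσ hn (inE0_smul_sub_of_semistable hA hq hΔ0 hss hσ P) (by
    rw [nsmul_sub, h', sub_zero]
    exact ((DistribSMul.toAddMonoidHom _ σ).map_nsmul n P).symm.trans (by rw [h', map_zero]))

/-- If `n` divides `v_q(Δ)` then inertia at `q ∤ n` fixes `E[n]`, for odd `n`. -/
theorem smul_eq_self_of_dvd (hA : A.LiesOverPrime q) (hq : q.Prime) (hΔ0 : W.Δ ≠ 0)
    (hΔ : (q : ℤ) ∣ W.Δ) (hc₄ : ¬ (q : ℤ) ∣ W.c₄) {σ : Q̄ ≃ₐ[ℚ] Q̄}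
    (hσ : σ ∈ A.inertiaSubgroupIn ℚ) {n : ℕ} (hodd : Odd n) (hn : ¬ q ∣ n)
    (hdvd : n ∣ padicValInt q W.Δ)
    {P : ((W.map (Int.castRingHom ℚ))⁄Q̄).Point} (h' : n • P = 0) : σ • P = P := by
  classical
  obtain ⟨N, hN⟩ := exists_node_int hA hq hΔ0 hΔ hc₄
  obtain ⟨e, he⟩ := hdvd
  refine N.smul_eq_self_of_root (by rw [Δ_qbar]; exact Int.cast_ne_zero.mpr hΔ0)
    (Reduction.res_inertia hσ).1 (Reduction.res_inertia hσ).2 hodd
      (valuation_natCast_eq_one hA hq hn)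
    (z := (q : Q̄) ^ e) (by rw [map_pow, map_natCast]) ?_ h'
  rw [hN, he, map_pow, ← pow_mul, mul_comm]

/-- The mod `n` representation is unramified at a multiplicative prime `q` with `n ∣ v_q(Δ)`. -/
theorem galoisRepUnramifiedAt_of_multiplicative (hq : q.Prime) (hΔ0 : W.Δ ≠ 0)
    (hΔ : (q : ℤ) ∣ W.Δ) (hc₄ : ¬ (q : ℤ) ∣ W.c₄) {n : ℕ} (hodd : Odd n) (hn : ¬ q ∣ n)
    (hdvd : n ∣ padicValInt q W.Δ) :
    Point.GaloisRepUnramifiedAt (K := Q̄) ℚ (W.map (Int.castRingHom ℚ)) n q := by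
  intro A hA σ hσ x
  refine Subtype.ext (smul_eq_self_of_dvd hA hq hΔ0 hΔ hc₄ hσ hodd hn hdvd ?_)
  have h := (Submodule.mem_torsionBy_iff _ _).mp x.2
  rwa [natCast_zsmul] at h

end Fermat.Agent.EC.Multiplicative
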