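import Fermat.Agent.EC.Multiplicative.Int
import Fermat.Agent.EC.Multiplicative.Fiber

/-!
# Frobenius at a multiplicative place

The decomposition group at a multiplicative place acts on components by the sign `ε = ±1`, which is
`1` exactly when it fixes the tangents at the node: `σ P - ε P` has nonsingular reduction.
-/

set_option autoImplicit false

open WeierstrassCurve WeierstrassCurve.Affine
open scoped Pointwise

namespace Fermat.Agent.EC.Multiplicative

open Fermat.Agent.EC.Reduction

namespace Node

universe r s v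

variable {R : Type r} {S : Type s} {L : Type v} [CommRing R] [Field S] [Field L]
  [Algebra R S] [Algebra R L] [Algebra S L] [IsScalarTower R S L]
  {W' : Affine R} {A : ValuationSubring L} {V : Affine (IsLocalRing.ResidueField A)}
  {σ : L ≃ₐ[S] L} {φ : IsLocalRing.ResidueField A →+* IsLocalRing.ResidueField A}

variable (N : Node A (W'⁄L) V)

/-- The residual action of `σ` fixes the abscissa of the node. -/
lemma res_map_r (hφ : ∀ x ∈ A, res A (σ x) = φ (res A x)) :
    res A (σ N.r) = res A N.r := by
  rw [hφ _ N.hr]
  have hns : ¬ V.Nonsingular (φ (res A N.r)) (φ (res A N.t)) := by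
    rw [N.red.nonsingular_map_iff hφ]
    exact N.nodal.not_nonsingular_node
  refine (N.nodal.eq_node_of_singular ?_ hns).1
  have := Affine.Equation.map φ N.nodal.equation_node
  rwa [N.red.map_eq_self hφ] at this

/-- An automorphism of the place fixes the coordinates of the node. -/
lemma map_rt (hσ : σ • A = A) (hφ : ∀ x ∈ A, res A (σ x) = φ (res A x)) :
    σ N.r = N.r ∧ σ N.t = N.t :=
  N.map_rt_eq hσ (N.res_map_r hφ)

variable [DecidableEq L] [DecidableEq (IsLocalRing.ResidueField A)] [Algebra.IsAlgebraic S L]

/-- The sign of an element of the decomposition group: `1` if it fixes the tangents. -/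
noncomputable def sign (σ : L ≃ₐ[S] L) : ℤ := if σ N.a = N.a then 1 else -1

omit [Algebra R S] [IsScalarTower R S L] [DecidableEq (IsLocalRing.ResidueField ↥A)]
    [Algebra.IsAlgebraic S L] in
lemma sign_eq_one_or (σ : L ≃ₐ[S] L) : N.sign σ = 1 ∨ N.sign σ = -1 := by
  unfold sign; split_ifs
  · exact Or.inl rfl
  · exact Or.inr rfl

omit [DecidableEq (IsLocalRing.ResidueField ↥A)] in
/-- The decomposition group acts on components by the sign. -/
lemma comp_smul_sign (hσ : σ • A = A) (hφ : ∀ x ∈ A, res A (σ x) = φ (res A x))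
    (P : (W'⁄L).Point) : N.comp (σ • P) = N.sign σ • N.comp P := by
  obtain ⟨hr, ht⟩ := N.map_rt hσ hφ
  match P with
  | .zero => show (0 : N.CompTarget) = _; rw [show N.comp Point.zero = 0 from rfl, zsmul_zero]
  | .some x y h =>
    obtain ⟨h', e⟩ := smul_some (σ := σ) h
    rw [e]
    have ex : σ x - N.r = σ (x - N.r) := by rw [map_sub, hr]
    have ey : σ y - N.t = σ (y - N.t) := by rw [map_sub, ht]
    have hiff : N.AtNode (Point.some (σ x) (σ y) h') ↔ N.AtNode (Point.some x y h) := by
      rw [atNode_some, atNode_some, ex, ey, valuation_map_eq hσ, valuation_map_eq hσ]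
    by_cases hP : N.AtNode (Point.some x y h)
    · rw [N.comp_of_atNode hP, N.comp_of_atNode (hiff.mpr hP), ex, ey]
      have n := N.nearNode h hP
      have h0 := NearNode.compVal_ne_zero (X := x - N.r) (Y := y - N.t) N.par
      have h1 := NearNode.compVal_ne_zero (X := x - N.r) (Y := y - N.t) N.par.symm
      have hz := (N.cls_eq_zero_iff (mul_ne_zero h0 h1)).mpr (n.compVal_mul_swap N.par)
      rw [N.cls_mul h0 h1] at hz
      have hcv : ∀ d d' : L, σ d = d' →
          compVal A.valuation d' N.c (σ (x - N.r)) (σ (y - N.t)) =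
            compVal A.valuation d N.c (x - N.r) (y - N.t) := by
        intro d d' hd
        have e' : σ (y - N.t) - d' * σ (x - N.r) = σ (y - N.t - d * (x - N.r)) := by
          rw [map_sub σ (y - N.t), map_mul, hd]
        rw [compVal, compVal, e', valuation_map_eq hσ, valuation_map_eq hσ]
      rcases N.map_ab hr with ⟨ha, hb⟩ | ⟨ha, hb⟩
      · rw [sign, if_pos ha, one_zsmul, hcv _ _ ha]
      · rw [sign, if_neg fun hh => N.resData.sep (by rw [← hh, ha, sub_self]), neg_one_zsmul,
          hcv _ _ hb, ← eq_neg_of_add_eq_zero_right hz]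
    · rw [N.comp_of_not_atNode hP, N.comp_of_not_atNode (mt hiff.mp hP), zsmul_zero]

/-- `σ P - ε P` has nonsingular reduction. -/
lemma inE0_smul_sub_sign (hσ : σ • A = A) (hφ : ∀ x ∈ A, res A (σ x) = φ (res A x))
    (P : (W'⁄L).Point) : InE0 A V (σ • P - N.sign σ • P) := by
  rw [← N.comp_eq_zero_iff, ← N.compHom_apply, map_sub, map_zsmul, N.compHom_apply,
    N.compHom_apply, N.comp_smul_sign hσ hφ, sub_self]

end Node

end Fermat.Agent.EC.Multiplicative
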