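import Fermat.Agent.EC.Multiplicative.Exists
import Fermat.Agent.EC.Reduction.Galois
import Mathlib.RingTheory.Algebraic.Integral

/-!
# Galois action and components

Automorphisms fixing a multiplicative place and acting trivially on its residue field preserve the
component of every point, so they move points inside the subgroup of nonsingular reduction.
-/

set_option autoImplicit false

open WeierstrassCurve WeierstrassCurve.Affine
open scoped Pointwise

namespace Fermat.Agent.EC.Multiplicative

open Fermat.Agent.EC.Reduction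

universe r s v

variable {R : Type r} {S : Type s} {L : Type v} [CommRing R] [Field S] [Field L]
  [Algebra R S] [Algebra R L] [Algebra S L] [IsScalarTower R S L]
  {W' : Affine R} {A : ValuationSubring L} {V : Affine (IsLocalRing.ResidueField A)}
  {σ : L ≃ₐ[S] L}

omit [Algebra R S] [Algebra R L] [IsScalarTower R S L] in
/-- An automorphism preserving `A` preserves the valuation of algebraic elements. -/
lemma valuation_map_eq [Algebra.IsAlgebraic S L] (hσ : σ • A = A) (x : L) :
    A.valuation (σ x) = A.valuation x := by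
  -- `σ` is monotone for the valuation.
  have hmono : ∀ {τ : L ≃ₐ[S] L}, τ • A = A → ∀ {y z : L},
      A.valuation y ≤ A.valuation z → A.valuation (τ y) ≤ A.valuation (τ z) := by
    intro τ hτ y z hyz
    obtain ⟨a, ha⟩ := (A.valuation_le_iff y z).mp hyz
    have hmem : τ (a : L) ∈ A := (map_mem_iff_of_smul_eq hτ _).mpr a.2
    exact (A.valuation_le_iff _ _).mpr ⟨⟨τ a, hmem⟩, by rw [← ha]; exact (map_mul τ _ _).symm⟩
  have key : ∀ {τ : L ≃ₐ[S] L}, τ • A = A → A.valuation x ≤ A.valuation (τ x) := by
    intro τ hτ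
    by_contra hlt
    rw [not_le] at hlt
    have hinv : τ⁻¹ • A = A := by
      conv_lhs => rw [← hτ]
      rw [inv_smul_smul]
    have hstrict : ∀ {y z : L}, A.valuation y < A.valuation z →
        A.valuation (τ y) < A.valuation (τ z) := by
      intro y z h
      refine lt_of_not_ge fun hle => ?_
      have := hmono hinv hle
      rw [← AlgEquiv.mul_apply, ← AlgEquiv.mul_apply, inv_mul_cancel] at this
      exact absurd this (not_le.mpr h)
    -- If it decreased `v x` strictly, the orbit of `x` would be infinite.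
    set u : ℕ → L := fun k => (τ ^ k) x with hu
    have hsucc : ∀ j, u (j + 1) = τ (u j) := fun j => by simp only [hu]; rw [pow_succ']; rfl
    have hdec : ∀ k, A.valuation (u (k + 1)) < A.valuation (u k) := by
      intro k
      induction k with
      | zero => simpa [hu] using hlt
      | succ k ih =>
        rw [hsucc (k + 1), hsucc k]
        rw [hsucc k] at ih
        exact hstrict ih
    have hanti : StrictAnti fun k => A.valuation (u k) := strictAnti_nat_of_succ_lt hdec
    have hinj : Function.Injective u := fun a b hab => hanti.injective (congrArg A.valuation hab)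
    have hfin : (Set.range u).Finite := by
      refine ((minpoly S x).rootSet_finite L).subset ?_
      rintro _ ⟨k, rfl⟩
      rw [Polynomial.mem_rootSet_of_ne (minpoly.ne_zero (Algebra.IsIntegral.isIntegral x))]
      show Polynomial.aeval ((τ ^ k) x) (minpoly S x) = 0
      rw [Polynomial.aeval_algHom_apply, minpoly.aeval, map_zero]
    exact Set.infinite_range_of_injective hinj hfin
  refine le_antisymm ?_ (key hσ)
  have hinv : σ⁻¹ • A = A := by
    conv_lhs => rw [← hσ]
    rw [inv_smul_smul]
  have := hmono hσ (key hinv)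
  rwa [← AlgEquiv.mul_apply, mul_inv_cancel, AlgEquiv.one_apply] at this

namespace Node

variable (N : Node A (W'⁄L) V)

/-- Galois fixes the coefficients of the equation. -/
lemma map_coeff (σ : L ≃ₐ[S] L) (a : R) : σ (algebraMap R L a) = algebraMap R L a := by
  rw [IsScalarTower.algebraMap_apply R S L, AlgEquiv.commutes]

/-- An automorphism whose residual action fixes the node fixes the exact node. -/
lemma map_rt_eq (hσ : σ • A = A) (hres : res A (σ N.r) = res A N.r) :
    σ N.r = N.r ∧ σ N.t = N.t := by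
  have k₁ : σ (W'⁄L).a₁ = (W'⁄L).a₁ := by
    simp [Affine.baseChange, WeierstrassCurve.baseChange, map_coeff]
  have k₂ : σ (W'⁄L).a₂ = (W'⁄L).a₂ := by
    simp [Affine.baseChange, WeierstrassCurve.baseChange, map_coeff]
  have k₃ : σ (W'⁄L).a₃ = (W'⁄L).a₃ := by
    simp [Affine.baseChange, WeierstrassCurve.baseChange, map_coeff]
  have k₄ : σ (W'⁄L).a₄ = (W'⁄L).a₄ := by
    simp [Affine.baseChange, WeierstrassCurve.baseChange, map_coeff]
  have hrA : σ N.r ∈ A := (map_mem_iff_of_smul_eq hσ _).mpr N.hr
  have ma := (A.valuation_le_one_iff _).mp N.par.ha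
  have mb := (A.valuation_le_one_iff _).mp N.par.hb
  have e₃ := congr_arg σ N.eq₃
  have e₄ := congr_arg σ N.eq₄
  simp only [map_add, map_sub, map_mul, map_pow, map_ofNat, map_zero, k₁, k₂, k₃, k₄] at e₃ e₄
  have n₆ : (6 : L) ∈ A := natCast_mem' 6
  set K : L := (N.a - N.b) ^ 2 + 6 * (σ N.r - N.r) with hK
  have hKK : (σ N.r - N.r) * K = 0 := by
    rw [hK, show (N.a - N.b) ^ 2 = (N.a + N.b) ^ 2 - 4 * (N.a * N.b) by ring, N.sum_ab, N.mul_ab]
    linear_combination (W'⁄L).a₁ * e₃ - (W'⁄L).a₁ * N.eq₃ + 2 * e₄ - 2 * N.eq₄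
  have hd : σ N.r - N.r ∈ A := sub_mem hrA N.hr
  have hK0 : K ≠ 0 := by
    intro e
    have := congr_arg (res A) e
    rw [hK, res_add (pow_mem (sub_mem ma mb) 2) (mul_mem n₆ hd), res_mul n₆ hd,
      res_sub hrA N.hr, hres, sub_self, mul_zero, add_zero, res_zero,
      res_pow (sub_mem ma mb), res_sub ma mb] at this
    exact pow_ne_zero 2 N.resData.sep this
  have hr : σ N.r = N.r := sub_eq_zero.mp ((mul_eq_zero.mp hKK).resolve_right hK0)
  have ht : σ N.t = N.t := by
    rw [hr] at e₃ e₄
    have h1 : 2 * (σ N.t - N.t) = 0 := by linear_combination e₃ - N.eq₃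
    have h2 : (W'⁄L).a₁ * (σ N.t - N.t) = 0 := by linear_combination N.eq₄ - e₄
    refine sub_eq_zero.mp (by_contra fun hne => ?_)
    have h1' := (mul_eq_zero.mp h1).resolve_right hne
    have h2' := (mul_eq_zero.mp h2).resolve_right hne
    have hsep := N.resData.sep
    rw [← res_sub ma mb] at hsep
    apply pow_ne_zero 2 hsep
    rw [← res_pow (sub_mem ma mb), show (N.a - N.b) ^ 2 = (N.a + N.b) ^ 2 - 2 * (2 * (N.a * N.b))
      by ring, N.sum_ab, h2', h1']
    simp
  exact ⟨hr, ht⟩

/-- An `S`-automorphism of `L` fixes the coefficient `a₁` of the base change. -/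
lemma map_a₁' (σ : L ≃ₐ[S] L) : σ (W'⁄L).a₁ = (W'⁄L).a₁ := by
  simp [Affine.baseChange, WeierstrassCurve.baseChange, map_coeff]

/-- An automorphism fixing the node permutes the two tangents. -/
lemma map_ab (hr : σ N.r = N.r) :
    (σ N.a = N.a ∧ σ N.b = N.b) ∨ (σ N.a = N.b ∧ σ N.b = N.a) := by
  have k₁ := map_a₁' (W' := W') σ
  have k₂ : σ (W'⁄L).a₂ = (W'⁄L).a₂ := by
    simp [Affine.baseChange, WeierstrassCurve.baseChange, map_coeff]
  have hquad : (σ N.a - N.a) * (σ N.a - N.b) = 0 := by
    have hroot : σ N.a ^ 2 + (W'⁄L).a₁ * σ N.a - ((W'⁄L).a₂ + 3 * N.r) = 0 := by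
      have h0 : N.a ^ 2 + (W'⁄L).a₁ * N.a - ((W'⁄L).a₂ + 3 * N.r) = 0 := by
        linear_combination N.a * N.sum_ab - N.mul_ab
      have := congr_arg σ h0
      simpa only [map_add, map_sub, map_mul, map_pow, map_ofNat, map_zero, k₁, k₂, hr] using this
    linear_combination hroot - σ N.a * N.sum_ab + N.mul_ab
  have hsum : σ N.a + σ N.b = N.a + N.b := by
    rw [← map_add, N.sum_ab, map_neg, k₁]
  rcases mul_eq_zero.mp hquad with e | e <;> rw [sub_eq_zero] at e
  · exact Or.inl ⟨e, by rw [e] at hsum; exact add_left_cancel hsum⟩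
  · exact Or.inr ⟨e, by rw [e, add_comm N.a] at hsum; exact add_left_cancel hsum⟩

/-- An automorphism acting trivially on the residue field fixes the node and its tangent slope. -/
lemma map_node_eq (hσ : σ • A = A) (hin : ∀ x ∈ A, res A (σ x) = res A x) :
    σ N.r = N.r ∧ σ N.t = N.t ∧ σ N.a = N.a := by
  obtain ⟨hr, ht⟩ := N.map_rt_eq hσ (hin _ N.hr)
  refine ⟨hr, ht, ((N.map_ab hr).resolve_right fun h => N.resData.sep ?_).1⟩
  rw [← hin _ ((A.valuation_le_one_iff _).mp N.par.ha), h.1, sub_self]

variable [DecidableEq L] [Algebra.IsAlgebraic S L]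

/-- Inertia preserves components. -/
lemma comp_smul (hσ : σ • A = A) (hin : ∀ x ∈ A, res A (σ x) = res A x) (P : (W'⁄L).Point) :
    N.comp (σ • P) = N.comp P := by
  obtain ⟨hr, ht, ha⟩ := N.map_node_eq hσ hin
  match P with
  | .zero => rfl
  | .some x y h =>
    obtain ⟨h', e⟩ := smul_some (σ := σ) h
    rw [e]
    have ex : σ x - N.r = σ (x - N.r) := by rw [map_sub, hr]
    have ey : σ y - N.t = σ (y - N.t) := by rw [map_sub, ht]
    have hiff : N.AtNode (Point.some (σ x) (σ y) h') ↔ N.AtNode (Point.some x y h) := by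
      rw [atNode_some, atNode_some, ex, ey, valuation_map_eq hσ, valuation_map_eq hσ]
    by_cases hP : N.AtNode (Point.some x y h)
    · rw [N.comp_of_atNode hP, N.comp_of_atNode (hiff.mpr hP), ex, ey]
      congr 1
      have e' : σ (y - N.t) - N.a * σ (x - N.r) = σ (y - N.t - N.a * (x - N.r)) := by
        rw [map_sub σ (y - N.t), map_mul, ha]
      rw [compVal, compVal, e', valuation_map_eq hσ, valuation_map_eq hσ]
    · rw [N.comp_of_not_atNode hP, N.comp_of_not_atNode (mt hiff.mp hP)]

variable [DecidableEq (IsLocalRing.ResidueField A)]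

/-- `σ P - P` has nonsingular reduction for `σ` in inertia. -/
lemma inE0_smul_sub (N : Node A (W'⁄L) V) (hσ : σ • A = A) (hin : ∀ x ∈ A, res A (σ x) = res A x)
    (P : (W'⁄L).Point) : InE0 A V (σ • P - P) := by
  rw [← N.comp_eq_zero_iff, ← N.compHom_apply, map_sub, N.compHom_apply, N.compHom_apply,
    N.comp_smul hσ hin, sub_self]

end Node

end Fermat.Agent.EC.Multiplicative
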