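import Fermat.Agent.EC.Torsion.Galois
import Fermat.Agent.EC.Multiplicative.Fiber
import Fermat.Agent.EC.Multiplicative.Int

/-!
# Torsion of nonsingular reduction at a multiplicative prime

Counting torsion at a multiplicative place: for `q ∤ n` the `n`-torsion points of nonsingular
reduction number exactly `n` (`natCard_torsion_inE0`).
-/

set_option autoImplicit false

open WeierstrassCurve WeierstrassCurve.Affine

namespace Fermat.Agent.EC.Multiplicative

open Fermat.Agent.EC.Reduction

namespace Node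

variable {L : Type*} [Field L] {A : ValuationSubring L}
  {W : Affine L} {V : Affine (IsLocalRing.ResidueField A)}
  [DecidableEq L] [DecidableEq (IsLocalRing.ResidueField A)]

omit [DecidableEq L] [DecidableEq (IsLocalRing.ResidueField A)] in
/-- The classes killed by `n` are at most `n`. -/
lemma card_compTarget_torsion_le (N : Node A W V) {n : ℕ} (hn : n ≠ 0) :
    Finite {g : N.CompTarget // n • g = 0} ∧ Nat.card {g : N.CompTarget // n • g = 0} ≤ n := by
  classical
  have : NeZero n := ⟨hn⟩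
  have hk : ∀ g : {g : N.CompTarget // n • g = 0}, ∃ k : ℤ,
      (Quotient.out (Additive.toMul g.1) : A.ValueGroupˣ) ^ n = (N.cUnit ^ 2) ^ k := by
    intro g
    have h := congr_arg Additive.toMul g.2
    rw [toMul_nsmul, toMul_zero] at h
    rw [← QuotientGroup.out_eq' (Additive.toMul g.1), ← QuotientGroup.mk_pow,
      QuotientGroup.eq_one_iff, Subgroup.mem_zpowers_iff] at h
    obtain ⟨k, hk⟩ := h
    exact ⟨k, hk.symm⟩
  choose k hk using hk
  have hinj : Function.Injective fun g => ((k g : ℤ) : ZMod n) := by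
    intro g g' he
    obtain ⟨j, hj⟩ := (ZMod.intCast_eq_intCast_iff_dvd_sub _ _ n).mp he
    apply Subtype.ext
    apply Additive.toMul.injective
    rw [← QuotientGroup.out_eq' (Additive.toMul g.1), ← QuotientGroup.out_eq' (Additive.toMul g'.1),
      QuotientGroup.eq, Subgroup.mem_zpowers_iff]
    refine ⟨j, ?_⟩
    have h2 : (((N.cUnit ^ 2) ^ j : A.ValueGroupˣ)) ^ n =
        ((Quotient.out (Additive.toMul g.1) : A.ValueGroupˣ)⁻¹ *
          Quotient.out (Additive.toMul g'.1)) ^ n := by
      rw [mul_pow, inv_pow, hk g, hk g', ← zpow_natCast, ← zpow_mul, ← zpow_neg, ← zpow_add]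
      congr 1
      linarith [hj]
    have h3 := congr_arg (fun u : A.ValueGroupˣ => (u : A.ValueGroup)) h2
    simp only [Units.val_pow_eq_pow_val] at h3
    exact Units.ext ((pow_left_inj₀ zero_le zero_le hn).mp h3)
  refine ⟨Finite.of_injective _ hinj, ?_⟩
  have := Nat.card_le_card_of_injective _ hinj
  rwa [Nat.card_zmod] at this

/-- Torsion with nonsingular reduction, as a subgroup. -/
def e0Torsion (N : Node A W V) (n : ℕ) : AddSubgroup W.Point :=
  N.red.E0 ⊓ (Submodule.torsionBy ℤ W.Point n).toAddSubgroup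

lemma mem_e0Torsion (N : Node A W V) {n : ℕ} {P : W.Point} :
    P ∈ N.e0Torsion n ↔ InE0 A V P ∧ n • P = 0 := by
  show P ∈ N.red.E0 ∧ P ∈ Submodule.torsionBy ℤ W.Point n ↔ _
  rw [ReducesTo.mem_E0, Submodule.mem_torsionBy_iff, natCast_zsmul]

lemma card_e0Torsion_le (N : Node A W V) {n : ℕ} (hn : A.valuation (n : L) = 1) :
    Finite (N.e0Torsion n) ∧ Nat.card (N.e0Torsion n) ≤ n := by
  classical
  have hn0 : n ≠ 0 := by rintro rfl; simp at hn
  have : NeZero n := ⟨hn0⟩
  set f : N.e0Torsion n → rootsOfUnity n (IsLocalRing.ResidueField A) := fun P =>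
    ⟨Additive.toMul (N.mu ⟨P.1, (N.mem_e0Torsion.mp P.2).1⟩), by
      rw [mem_rootsOfUnity, ← toMul_nsmul, ← map_nsmul]
      rw [show n • (⟨P.1, (N.mem_e0Torsion.mp P.2).1⟩ : N.red.E0) = 0 from
        Subtype.ext (N.mem_e0Torsion.mp P.2).2, map_zero, toMul_zero]⟩ with hf
  have hinj : Function.Injective f := by
    intro P Q h
    have h' : N.mu ⟨P.1, (N.mem_e0Torsion.mp P.2).1⟩ = N.mu ⟨Q.1, (N.mem_e0Torsion.mp Q.2).1⟩ :=
      Additive.toMul.injective (Subtype.ext_iff.mp h)
    rw [← sub_eq_zero, ← map_sub, N.mu_eq_zero_iff] at h'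
    apply Subtype.ext
    refine sub_eq_zero.mp (N.red.eq_zero_of_nsmul_eq_zero hn h' ?_)
    show n • (P.1 - Q.1) = 0
    rw [nsmul_sub, (N.mem_e0Torsion.mp P.2).2, (N.mem_e0Torsion.mp Q.2).2, sub_zero]
  refine ⟨Finite.of_injective _ hinj, (Nat.card_le_card_of_injective _ hinj).trans ?_⟩
  exact card_rootsOfUnity _ n

/-- `E₀[n]` has at least `n` elements when `E[n]` has `n ^ 2`. -/
theorem le_natCard_e0Torsion (N : Node A W V) {n : ℕ} (hn0 : n ≠ 0)
    (hcard : Nat.card (Submodule.torsionBy ℤ W.Point n) = n ^ 2) :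
    n ≤ Nat.card (N.e0Torsion n) := by
  obtain ⟨hfin, hT⟩ := N.card_compTarget_torsion_le hn0
  have := hfin
  set T := (Submodule.torsionBy ℤ W.Point n).toAddSubgroup with hTdef
  set f : T →+ N.CompTarget := N.compHom.comp T.subtype with hf
  have hker : Nat.card f.ker = Nat.card (N.e0Torsion n) := Nat.card_congr
    { toFun := fun P => ⟨P.1.1, (N.comp_eq_zero_iff _).mp P.2, P.1.2⟩
      invFun := fun P => ⟨⟨P.1, P.2.2⟩, (N.comp_eq_zero_iff _).mpr P.2.1⟩
      left_inv := fun P => rfl
      right_inv := fun P => rfl }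
  have hrange : Nat.card f.range ≤ n := by
    refine (Nat.card_le_card_of_injective
      (fun g : f.range => (⟨g.1, ?_⟩ : {g : N.CompTarget // n • g = 0})) ?_).trans hT
    · obtain ⟨P, hP⟩ := g.2
      rw [← hP, ← map_nsmul, show n • P = 0 from Subtype.ext (by
        have := (Submodule.mem_torsionBy_iff _ _).mp P.2
        rwa [natCast_zsmul] at this), map_zero]
    · intro g g' h
      exact Subtype.ext (by simpa using h)
  have hprod := AddSubgroup.card_eq_card_quotient_mul_card_addSubgroup f.ker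
  rw [Nat.card_congr (QuotientAddGroup.quotientKerEquivRange f).toEquiv, hker,
    show Nat.card T = n ^ 2 from hcard, sq] at hprod
  exact Nat.le_of_mul_le_mul_left (hprod.le.trans (Nat.mul_le_mul_right _ hrange))
    (Nat.pos_of_ne_zero hn0)

/-- `E₀[n]` has order `n`, for `n` a unit, when `E[n]` has order `n ^ 2`. -/
theorem natCard_e0Torsion (N : Node A W V) {n : ℕ} (hn : A.valuation (n : L) = 1)
    (hcard : Nat.card (Submodule.torsionBy ℤ W.Point n) = n ^ 2) :
    Nat.card (N.e0Torsion n) = n :=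
  le_antisymm (N.card_e0Torsion_le hn).2
    (N.le_natCard_e0Torsion (by rintro rfl; simp at hn) hcard)

/-- Some `n`-torsion point has singular reduction. -/
theorem exists_torsion_not_inE0 (N : Node A W V) {n : ℕ} (hn : A.valuation (n : L) = 1)
    (hn1 : 1 < n) (hcard : Nat.card (Submodule.torsionBy ℤ W.Point n) = n ^ 2) :
    ∃ P : W.Point, n • P = 0 ∧ ¬ InE0 A V P := by
  by_contra h
  simp only [not_exists, not_and, not_not] at h
  have hle : N.e0Torsion n = (Submodule.torsionBy ℤ W.Point n).toAddSubgroup := by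
    refine inf_eq_right.mpr fun P hP => h P ?_
    have := (Submodule.mem_torsionBy_iff _ _).mp hP
    rwa [natCast_zsmul] at this
  have := N.natCard_e0Torsion hn hcard
  rw [hle, show Nat.card ((Submodule.torsionBy ℤ W.Point n).toAddSubgroup) = n ^ 2 from hcard,
    sq] at this
  nlinarith

end Node

section Int

local notation "Q̄" => AlgebraicClosure ℚ

variable {A : ValuationSubring Q̄} {q : ℕ} {W : WeierstrassCurve ℤ}

/-- At a multiplicative prime `q ∤ n`, the `n`-torsion with nonsingular reduction has order `n`. -/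
theorem natCard_torsion_inE0 (hA : A.LiesOverPrime q) (hq : q.Prime) (hΔ0 : W.Δ ≠ 0)
    (hΔ : (q : ℤ) ∣ W.Δ) (hc₄ : ¬ (q : ℤ) ∣ W.c₄) {n : ℕ} (hn0 : n ≠ 0) (hn : ¬ q ∣ n) :
    Nat.card {P : ((W.map (Int.castRingHom ℚ))⁄Q̄).Point //
      InE0 A (W.map (Int.castRingHom (IsLocalRing.ResidueField A))) P ∧ n • P = 0} = n := by
  classical
  have : (W.map (Int.castRingHom ℚ)).IsElliptic :=
    (WeierstrassCurve.isElliptic_iff _).mpr (isUnit_iff_ne_zero.mpr (by
      rw [map_Δ]; simpa using hΔ0))
  obtain ⟨N, -⟩ := exists_node_int hA hq hΔ0 hΔ hc₄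
  exact (Nat.card_congr (Equiv.subtypeEquivRight fun P => N.mem_e0Torsion.symm)).trans
    (N.natCard_e0Torsion (valuation_natCast_eq_one hA hq hn)
      (Fermat.Agent.EC.Torsion.natCard_torsionBy_algebraicClosureRat
        (W.map (Int.castRingHom ℚ)) hn0))

end Int

end Fermat.Agent.EC.Multiplicative
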