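import Fermat.Agent.EC.Multiplicative.Component
import Mathlib.AlgebraicGeometry.EllipticCurve.VariableChange
import Mathlib.FieldTheory.IsAlgClosed.Basic

/-!
# Existence of an exact node

Over an algebraically closed valued field, an integral equation with multiplicative reduction and
nonzero discriminant has an exact node, with constant of the same valuation as the discriminant
(`exists_node`).
-/

set_option autoImplicit false

open WeierstrassCurve

namespace Fermat.Agent.EC.Multiplicative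

open Fermat.Agent.EC.Reduction

section Identities

variable {R : Type*} [CommRing R] {W : WeierstrassCurve R} {r t : R}

lemma Δ_eq_of_node (h₃ : W.a₃ + W.a₁ * r + 2 * t = 0)
    (h₄ : W.a₄ + 2 * W.a₂ * r + 3 * r ^ 2 - W.a₁ * t = 0) :
    W.Δ = -(r ^ 3 + W.a₂ * r ^ 2 + W.a₄ * r + W.a₆ - t ^ 2 - W.a₃ * t - W.a₁ * r * t) *
      ((W.b₂ + 12 * r) ^ 3
        + 432 * (r ^ 3 + W.a₂ * r ^ 2 + W.a₄ * r + W.a₆ - t ^ 2 - W.a₃ * t - W.a₁ * r * t)) := by
  set C : VariableChange R := ⟨1, r, 0, t⟩ with hC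
  have e1 : (C • W).a₁ = W.a₁ := by simp [hC, variableChange_a₁]
  have e2 : (C • W).a₂ = W.a₂ + 3 * r := by simp [hC, variableChange_a₂]
  have e3 : (C • W).a₃ = 0 := by
    simp [hC, variableChange_a₃]
    linear_combination h₃
  have e4 : (C • W).a₄ = 0 := by
    simp [hC, variableChange_a₄]
    linear_combination h₄
  have e6 : (C • W).a₆ =
      r ^ 3 + W.a₂ * r ^ 2 + W.a₄ * r + W.a₆ - t ^ 2 - W.a₃ * t - W.a₁ * r * t := by
    simp [hC, variableChange_a₆]
    ring
  have eΔ : W.Δ = (C • W).Δ := by rw [variableChange_Δ]; simp [hC]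
  rw [eΔ]
  simp only [WeierstrassCurve.Δ, WeierstrassCurve.b₂, WeierstrassCurve.b₄, WeierstrassCurve.b₆,
    WeierstrassCurve.b₈, e1, e2, e3, e4, e6]
  ring

lemma c₄_eq_of_node (h₃ : W.a₃ + W.a₁ * r + 2 * t = 0)
    (h₄ : W.a₄ + 2 * W.a₂ * r + 3 * r ^ 2 - W.a₁ * t = 0) :
    W.c₄ = (W.b₂ + 12 * r) ^ 2 := by
  simp only [WeierstrassCurve.c₄, WeierstrassCurve.b₂, WeierstrassCurve.b₄]
  linear_combination (-48 : R) * h₄ - 24 * W.a₁ * h₃

lemma xNode_eq_of_node (h₃ : W.a₃ + W.a₁ * r + 2 * t = 0)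
    (h₄ : W.a₄ + 2 * W.a₂ * r + 3 * r ^ 2 - W.a₁ * t = 0) :
    18 * W.b₆ - W.b₂ * W.b₄ = r * W.c₄
      + 72 * (r ^ 3 + W.a₂ * r ^ 2 + W.a₄ * r + W.a₆ - t ^ 2 - W.a₃ * t - W.a₁ * r * t) := by
  simp only [WeierstrassCurve.c₄, WeierstrassCurve.b₂, WeierstrassCurve.b₄, WeierstrassCurve.b₆]
  linear_combination (-2 * (W.a₁ ^ 2 + 4 * W.a₂) - 24 * r) * h₄
    + (-(W.a₁ ^ 2 + 4 * W.a₂) * W.a₁ + 18 * W.a₃ + 6 * W.a₁ * r + 36 * t) * h₃

lemma b₄_mul_c₄_sq :
    6 * (18 * W.b₆ - W.b₂ * W.b₄) ^ 2 + W.b₂ * (18 * W.b₆ - W.b₂ * W.b₄) * W.c₄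
      + W.b₄ * W.c₄ ^ 2 = -72 * W.Δ := by
  have := W.b_relation
  simp only [WeierstrassCurve.c₄, WeierstrassCurve.Δ]
  linear_combination (-18 * W.b₂ ^ 2) * this

end Identities

variable {L : Type*} [Field L] [IsAlgClosed L] {A : ValuationSubring L}

omit [IsAlgClosed L] in
lemma coe_ofNat' (n : ℕ) [n.AtLeastTwo] : ((ofNat(n) : A) : L) = ofNat(n) :=
  map_ofNat A.subtype n

/-- A simple residual root of a quadratic lifts to a root. -/
lemma exists_quadratic_root {c₂ c₁ c₀ : A} {T : IsLocalRing.ResidueField A}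
    (h : IsLocalRing.residue A c₂ * T ^ 2 + IsLocalRing.residue A c₁ * T
      + IsLocalRing.residue A c₀ = 0)
    (h' : 2 * IsLocalRing.residue A c₂ * T + IsLocalRing.residue A c₁ ≠ 0) :
    ∃ x : A, c₂ * x ^ 2 + c₁ * x + c₀ = 0 ∧ IsLocalRing.residue A x = T := by
  obtain ⟨T₀, rfl⟩ := IsLocalRing.residue_surjective T
  set e₁ : A := 2 * c₂ * T₀ + c₁ with he₁
  set e₀ : A := c₂ * T₀ ^ 2 + c₁ * T₀ + c₀ with he₀
  have hv₁ : A.valuation (e₁ : L) = 1 :=
    (A.valuation_eq_one_iff _).mp (IsLocalRing.residue_ne_zero_iff_isUnit _ |>.mp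
      (by simpa [he₁, map_ofNat] using h'))
  have hv₀ : A.valuation (e₀ : L) < 1 := by
    rw [← ValuationSubring.mem_nonunits_iff, ← res_eq_zero_iff e₀.2, res_coe]
    simpa [he₀] using h
  -- It suffices to find a small root of the shifted equation, with unit linear term.
  suffices ∃ z : L, A.valuation z < 1 ∧ (c₂ : L) * z ^ 2 + e₁ * z + e₀ = 0 by
    obtain ⟨z, hz, ez⟩ := this
    refine ⟨T₀ + ⟨z, (A.valuation_le_one_iff z).mp hz.le⟩, Subtype.ext ?_, ?_⟩
    · rw [show (e₁ : L) = 2 * (c₂ : L) * T₀ + c₁ by simp [he₁, coe_ofNat'],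
        show (e₀ : L) = (c₂ : L) * T₀ ^ 2 + c₁ * T₀ + c₀ by simp [he₀]] at ez
      push_cast
      linear_combination ez
    · rw [map_add, add_eq_left, IsLocalRing.residue_eq_zero_iff,
        ← ValuationSubring.coe_mem_nonunits_iff, ValuationSubring.mem_nonunits_iff]
      exact hz
  have h10 : (e₁ : L) ≠ 0 := fun e => by simp [e] at hv₁
  by_cases h2 : (c₂ : L) = 0
  · refine ⟨-(e₀ : L) / e₁, ?_, ?_⟩
    · rwa [map_div₀, Valuation.map_neg, hv₁, div_one]
    · rw [h2]; field_simp; ring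
  open Polynomial in
  -- One of the two roots over the closure is small, their sum being large.
  obtain ⟨z, hz⟩ := IsAlgClosed.exists_root
    (C (c₂ : L) * X ^ 2 + C (e₁ : L) * X + C (e₀ : L)) (by rw [degree_quadratic h2]; norm_num)
  simp only [Polynomial.IsRoot, Polynomial.eval_add, Polynomial.eval_mul, Polynomial.eval_C,
    Polynomial.eval_pow, Polynomial.eval_X] at hz
  set z' : L := -(e₁ : L) / c₂ - z with hz'
  have hs : (c₂ : L) * (z + z') = -(e₁ : L) := by rw [hz']; field_simp; ring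
  have hz2 : (c₂ : L) * z' ^ 2 + e₁ * z' + e₀ = 0 := by
    linear_combination hz + (z' - z) * hs
  by_cases hzs : A.valuation z < 1
  · exact ⟨z, hzs, hz⟩
  by_cases hzs' : A.valuation z' < 1
  · exact ⟨z', hzs', hz2⟩
  exfalso
  rw [not_lt] at hzs hzs'
  have hp : (c₂ : L) * z * z' = e₀ := by linear_combination z * hs - hz
  have small : ∀ u u' : L, 1 ≤ A.valuation u' → (c₂ : L) * u * u' = e₀ →
      A.valuation ((c₂ : L) * u) < 1 := by
    intro u u' hu' he
    refine lt_of_le_of_lt (le_mul_of_one_le_right zero_le hu') ?_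
    rw [← map_mul, he]
    exact hv₀
  have := A.valuation.map_add_lt (small z z' hzs' hp)
    (small z' z hzs (by linear_combination hp))
  rw [← mul_add, hs, Valuation.map_neg, hv₁] at this
  exact lt_irrefl _ this

variable {W : Affine L} {V : Affine (IsLocalRing.ResidueField A)}

/-- In residue characteristic two the singular point of the reduction lifts. -/
private lemma exists_singular_lift_of_two_eq_zero {W₀ : WeierstrassCurve A}
    (hc₄ : IsLocalRing.residue A W₀.c₄ ≠ 0) (h2 : IsLocalRing.residue A (2 : A) = 0) :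
    ∃ r t : A, W₀.a₃ + W₀.a₁ * r + 2 * t = 0 ∧
      W₀.a₄ + 2 * W₀.a₂ * r + 3 * r ^ 2 - W₀.a₁ * t = 0 := by
  have hb : IsLocalRing.residue A W₀.a₁ ≠ 0 := by
    intro ha
    apply hc₄
    simp only [WeierstrassCurve.c₄, WeierstrassCurve.b₂, WeierstrassCurve.b₄, map_sub, map_mul,
      map_add, map_pow, map_ofNat] at h2 ⊢
    rw [ha, show (4 : IsLocalRing.ResidueField A) = 2 * 2 by norm_num,
      show (24 : IsLocalRing.ResidueField A) = 2 * 12 by norm_num, h2]
    ring
  obtain ⟨i, hi⟩ : ∃ i : A, W₀.a₁ * i = 1 :=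
    (IsLocalRing.residue_ne_zero_iff_isUnit _ |>.mp hb).exists_right_inv
  obtain ⟨t, ht, -⟩ := exists_quadratic_root (c₂ := 12 * i ^ 2)
    (c₁ := -4 * W₀.a₂ * i + 12 * W₀.a₃ * i ^ 2 - W₀.a₁)
    (c₀ := W₀.a₄ - 2 * W₀.a₂ * W₀.a₃ * i + 3 * W₀.a₃ ^ 2 * i ^ 2)
    (T := IsLocalRing.residue A
      ((W₀.a₄ - 2 * W₀.a₂ * W₀.a₃ * i + 3 * W₀.a₃ ^ 2 * i ^ 2) * i))
    (by
      simp only [map_sub, map_add, map_mul, map_neg, map_pow, map_ofNat] at h2 ⊢
      have := congr_arg (IsLocalRing.residue A) hi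
      rw [map_mul, map_one] at this
      rw [show (4 : IsLocalRing.ResidueField A) = 2 * 2 by norm_num,
        show (12 : IsLocalRing.ResidueField A) = 2 * 6 by norm_num, h2]
      linear_combination -(IsLocalRing.residue A W₀.a₄
        + 3 * IsLocalRing.residue A W₀.a₃ ^ 2 * IsLocalRing.residue A i ^ 2) * this)
    (by
      simp only [map_sub, map_add, map_mul, map_neg, map_pow, map_ofNat] at h2 ⊢
      rw [show (4 : IsLocalRing.ResidueField A) = 2 * 2 by norm_num,
        show (12 : IsLocalRing.ResidueField A) = 2 * 6 by norm_num, h2]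
      simpa using hb)
  refine ⟨-(W₀.a₃ + 2 * t) * i, t, ?_, ?_⟩
  · linear_combination -(W₀.a₃ + 2 * t) * hi
  · linear_combination ht

/-- In residue characteristic not two the singular point of the reduction lifts, and its abscissa
is that of the node. -/
private lemma exists_singular_lift_of_two_ne_zero {W₀ : WeierstrassCurve A}
    (hc₄ : IsLocalRing.residue A W₀.c₄ ≠ 0) (hΔ : IsLocalRing.residue A W₀.Δ = 0)
    (h2 : ¬ IsLocalRing.residue A (2 : A) = 0) :
    ∃ r t : A, W₀.a₃ + W₀.a₁ * r + 2 * t = 0 ∧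
      W₀.a₄ + 2 * W₀.a₂ * r + 3 * r ^ 2 - W₀.a₁ * t = 0 ∧
      IsLocalRing.residue A (18 * W₀.b₆ - W₀.b₂ * W₀.b₄ - r * W₀.c₄) = 0 := by
  have hc₄u : IsUnit W₀.c₄ := IsLocalRing.residue_ne_zero_iff_isUnit _ |>.mp hc₄
  obtain ⟨j, hj⟩ : ∃ j : A, 2 * j = 1 :=
    (IsLocalRing.residue_ne_zero_iff_isUnit _ |>.mp h2).exists_right_inv
  obtain ⟨i, hi⟩ := hc₄u.exists_right_inv
  have hkey := congr_arg (IsLocalRing.residue A) (b₄_mul_c₄_sq (W := W₀))
  have hi' := congr_arg (IsLocalRing.residue A) hi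
  simp only [map_sub, map_add, map_mul, map_neg, map_pow, map_ofNat, map_one, hΔ, mul_zero]
    at hkey hi'
  obtain ⟨r, hr, hrT⟩ := exists_quadratic_root (c₂ := (6 : A)) (c₁ := W₀.b₂) (c₀ := W₀.b₄)
    (T := IsLocalRing.residue A ((18 * W₀.b₆ - W₀.b₂ * W₀.b₄) * i))
    (by
      simp only [map_sub, map_mul, map_ofNat]
      linear_combination IsLocalRing.residue A i ^ 2 * hkey
        - ((18 * IsLocalRing.residue A W₀.b₆
            - IsLocalRing.residue A W₀.b₂ * IsLocalRing.residue A W₀.b₄)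
            * IsLocalRing.residue A i * IsLocalRing.residue A W₀.b₂
          + IsLocalRing.residue A W₀.b₄
            * (IsLocalRing.residue A W₀.c₄ * IsLocalRing.residue A i + 1)) * hi')
    (by
      intro hd
      apply hc₄
      simp only [map_sub, map_mul, map_ofNat] at hd
      set T := (18 * IsLocalRing.residue A W₀.b₆
        - IsLocalRing.residue A W₀.b₂ * IsLocalRing.residue A W₀.b₄)
        * IsLocalRing.residue A i
      have hT : 6 * T ^ 2 + IsLocalRing.residue A W₀.b₂ * T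
          + IsLocalRing.residue A W₀.b₄ = 0 := by
        linear_combination IsLocalRing.residue A i ^ 2 * hkey
          - (T * IsLocalRing.residue A W₀.b₂ + IsLocalRing.residue A W₀.b₄
            * (IsLocalRing.residue A W₀.c₄ * IsLocalRing.residue A i + 1)) * hi'
      simp only [WeierstrassCurve.c₄, map_sub, map_mul, map_pow, map_ofNat]
      linear_combination (2 * 6 * T + IsLocalRing.residue A W₀.b₂) * hd - 24 * hT)
  refine ⟨r, -(W₀.a₃ + W₀.a₁ * r) * j, ?_, ?_, ?_⟩
  · linear_combination -(W₀.a₃ + W₀.a₁ * r) * hj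
  · simp only [WeierstrassCurve.b₂, WeierstrassCurve.b₄] at hr
    linear_combination j * hr - (W₀.a₄ + 2 * W₀.a₂ * r + 3 * r ^ 2) * hj
  · rw [map_sub, map_mul (IsLocalRing.residue A) r, hrT, map_mul, mul_assoc,
      mul_comm (IsLocalRing.residue A i), hi', mul_one, sub_self]

omit [IsAlgClosed L] in
/-- If `r` is the residual abscissa of the node where `2 ≠ 0`, the constant term vanishes
residually. -/
private lemma residue_nodeConst_eq_zero {W₀ : WeierstrassCurve A} {r c d : A}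
    (hdres : IsLocalRing.residue A d ≠ 0) (hΔ : IsLocalRing.residue A W₀.Δ = 0)
    (eΔ : W₀.Δ = -c * (d ^ 3 + 432 * c))
    (eN : 18 * W₀.b₆ - W₀.b₂ * W₀.b₄ = r * W₀.c₄ + 72 * c)
    (hN : IsLocalRing.residue A (2 : A) ≠ 0 →
      IsLocalRing.residue A (18 * W₀.b₆ - W₀.b₂ * W₀.b₄ - r * W₀.c₄) = 0) :
    IsLocalRing.residue A c = 0 := by
  have hprod : IsLocalRing.residue A c *
      (IsLocalRing.residue A d ^ 3 + 432 * IsLocalRing.residue A c) = 0 := by
    have := congr_arg (IsLocalRing.residue A) eΔ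
    rw [hΔ] at this
    simp only [map_neg, map_mul, map_add, map_pow, map_ofNat] at this
    linear_combination this
  have h432 : 432 * IsLocalRing.residue A c = 0 := by
    by_cases h2 : IsLocalRing.residue A (2 : A) = 0
    · rw [map_ofNat] at h2
      rw [show (432 : IsLocalRing.ResidueField A) = 2 * 216 by norm_num, h2, zero_mul, zero_mul]
    · have h72 := hN h2
      rw [eN, add_sub_cancel_left, map_mul, map_ofNat] at h72
      linear_combination 6 * h72
  rw [h432, add_zero] at hprod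
  exact (mul_eq_zero.mp hprod).resolve_right (pow_ne_zero 3 hdres)

/-- The slopes `a`, `-a₁ - a` of the tangents at the node are integral, and the square of their
difference is `b₂ + 12 r`. -/
private lemma exists_tangent_slope (W₀ : WeierstrassCurve A) (r : A) :
    ∃ a : L, a ∈ A ∧ a ^ 2 + (W₀.a₁ : L) * a + -((W₀.a₂ + 3 * r : A) : L) = 0 ∧
      (a - (-(W₀.a₁ : L) - a)) ^ 2 = ((W₀.b₂ + 12 * r : A) : L) := by
  open Polynomial in
  obtain ⟨a, ha⟩ := IsAlgClosed.exists_root
    (C (1 : L) * X ^ 2 + C ((W₀.a₁ : L)) * X + C (-((W₀.a₂ + 3 * r : A) : L)))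
    (by rw [degree_quadratic one_ne_zero]; norm_num)
  simp only [Polynomial.IsRoot, Polynomial.eval_add, Polynomial.eval_mul, Polynomial.eval_C,
    Polynomial.eval_pow, Polynomial.eval_X, one_mul] at ha
  have haA : a ∈ A := by
    by_contra hna
    refine not_mem_sq_add_mul hna W₀.a₁.2 (W₀.a₂ + 3 * r).2 ?_
    rw [sub_eq_add_neg, ha]
    exact zero_mem A
  have hsq : (a - (-(W₀.a₁ : L) - a)) ^ 2 = ((W₀.b₂ + 12 * r : A) : L) := by
    simp only [WeierstrassCurve.b₂]
    push_cast [coe_ofNat'] at ha ⊢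
    linear_combination 4 * ha
  exact ⟨a, haA, ha, hsq⟩

/-- An equation with multiplicative reduction has an exact node, and its constant term has the
valuation of the discriminant. -/
lemma exists_node (h : ReducesTo A W V) (hc₄ : V.c₄ ≠ 0) (hΔ : V.Δ = 0) (hΔ0 : W.Δ ≠ 0) :
    ∃ N : Node A W V, A.valuation N.c = A.valuation W.Δ := by
  obtain ⟨W₀, rfl, rfl⟩ := h
  simp only [map_c₄, map_Δ] at hc₄ hΔ hΔ0
  -- `(r, t)` lifts the singular point of the reduction
  obtain ⟨r, t, h₃, h₄, hN⟩ : ∃ r t : A, W₀.a₃ + W₀.a₁ * r + 2 * t = 0 ∧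
      W₀.a₄ + 2 * W₀.a₂ * r + 3 * r ^ 2 - W₀.a₁ * t = 0 ∧
      (IsLocalRing.residue A (2 : A) ≠ 0 →
        IsLocalRing.residue A (18 * W₀.b₆ - W₀.b₂ * W₀.b₄ - r * W₀.c₄) = 0) := by
    by_cases h2 : IsLocalRing.residue A (2 : A) = 0
    · obtain ⟨r, t, h₃, h₄⟩ := exists_singular_lift_of_two_eq_zero hc₄ h2
      exact ⟨r, t, h₃, h₄, fun h => absurd h2 h⟩
    · obtain ⟨r, t, h₃, h₄, h₅⟩ := exists_singular_lift_of_two_ne_zero hc₄ hΔ h2
      exact ⟨r, t, h₃, h₄, fun _ => h₅⟩
  -- translated there, the equation has constant term `c`, and `c₄ = d ^ 2`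
  have e₄ := c₄_eq_of_node h₃ h₄
  have eΔ := Δ_eq_of_node h₃ h₄
  have eN := xNode_eq_of_node h₃ h₄
  set c : A := r ^ 3 + W₀.a₂ * r ^ 2 + W₀.a₄ * r + W₀.a₆ - t ^ 2 - W₀.a₃ * t - W₀.a₁ * r * t
    with hc
  set d : A := W₀.b₂ + 12 * r with hd
  have hdres : IsLocalRing.residue A d ≠ 0 := fun e => hc₄ (by
    rw [e₄, map_pow, e, zero_pow two_ne_zero])
  have hcres := residue_nodeConst_eq_zero hdres hΔ eΔ eN hN
  obtain ⟨a, haA, ha, hsq⟩ := exists_tangent_slope W₀ r
  -- so `d` is a unit and `c` is small, whence `Δ` has the valuation of `c`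
  have hvd : A.valuation (d : L) = 1 :=
    (A.valuation_eq_one_iff _).mp (IsLocalRing.residue_ne_zero_iff_isUnit _ |>.mp hdres)
  have hvc : A.valuation (c : L) < 1 := by
    rw [← ValuationSubring.mem_nonunits_iff, ← res_eq_zero_iff c.2, res_coe]; exact hcres
  have hΔL : ((W₀.map A.subtype).toAffine).Δ = -(c : L) * ((d : L) ^ 3 + 432 * (c : L)) := by
    show (W₀.map A.subtype).Δ = _
    rw [map_Δ, eΔ, A.subtype_apply]
    push_cast [coe_ofNat']
    rfl
  have hc0 : (c : L) ≠ 0 := fun e => hΔ0 (by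
    have := hΔL
    rw [e, neg_zero, zero_mul] at this
    rw [← map_Δ]; exact this)
  have hnc : nodeConst (W₀.map A.subtype).toAffine (r : L) (t : L) = (c : L) := by
    simp only [nodeConst, hc, map_a₁, map_a₂, map_a₃, map_a₄, map_a₆]
    push_cast [A.subtype_apply]
    rfl
  refine ⟨{ red := reducesTo_map A W₀
            r := r
            t := t
            a := a
            b := -(W₀.a₁ : L) - a
            hr := r.2
            ht := t.2
            eq₃ := by simpa [coe_ofNat'] using congr_arg A.subtype h₃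
            eq₄ := by simpa [coe_ofNat'] using congr_arg A.subtype h₄
            sum_ab := by show a + (-(W₀.a₁ : L) - a) = -(W₀.a₁ : L); ring
            mul_ab := by
              show a * (-(W₀.a₁ : L) - a) = -((W₀.a₂ : L) + 3 * (r : L))
              push_cast [coe_ofNat'] at ha
              linear_combination -ha
            params := ⟨(A.valuation_le_one_iff a).mpr haA,
              (A.valuation_le_one_iff _).mpr (sub_mem (neg_mem W₀.a₁.2) haA), ?_, ?_, ?_⟩ },
    ?_⟩
  · have := congr_arg A.valuation hsq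
    rw [map_pow, hvd] at this
    exact (pow_eq_one_iff_of_nonneg zero_le two_ne_zero).mp this
  · rw [hnc]; exact hc0
  · rw [hnc]; exact hvc
  · show A.valuation (nodeConst (W₀.map A.subtype).toAffine (r : L) (t : L)) = _
    have hsmall : A.valuation (432 * (c : L)) < 1 := by
      rw [map_mul]
      exact (mul_le_of_le_one_left zero_le
        ((A.valuation_le_one_iff _).mpr (natCast_mem A 432))).trans_lt hvc
    rw [hnc, hΔL, map_mul, Valuation.map_neg,
      A.valuation.map_add_eq_of_lt_left (by rwa [map_pow, hvd, one_pow]), map_pow, hvd, one_pow,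
      mul_one]

end Fermat.Agent.EC.Multiplicative
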