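import Fermat.Agent.EC.Multiplicative.Galois

/-!
# Torsion points at a multiplicative place

Points near the node with a prescribed component, and the action on torsion of automorphisms
acting trivially on the residue field.
-/

set_option autoImplicit false

open WeierstrassCurve WeierstrassCurve.Affine
open scoped Pointwise

namespace Fermat.Agent.EC.Multiplicative

open Fermat.Agent.EC.Reduction

namespace Node

section Component

variable {L : Type*} [Field L] {A : ValuationSubring L}
  {W : Affine L} {V : Affine (IsLocalRing.ResidueField A)}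

/-- The class of a power is the multiple of the class. -/
lemma cls_pow (N : Node A W V) {g : A.ValueGroup} (hg : g ≠ 0) (n : ℕ) :
    N.cls (g ^ n) = n • N.cls g := by
  induction n with
  | zero =>
    rw [pow_zero, zero_nsmul, N.cls_eq_zero_iff one_ne_zero]
    exact InH.one
  | succ n ih => rw [pow_succ, N.cls_mul (pow_ne_zero _ hg) hg, ih, succ_nsmul]

variable [DecidableEq L] [DecidableEq (IsLocalRing.ResidueField A)]

/-- The component of an odd order torsion point near the node. -/
lemma valuation_pow_of_nsmul (N : Node A W V) {n : ℕ} (hn : Odd n) {x y : L}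
    {h : W.Nonsingular x y} (hP : N.AtNode (Point.some x y h))
    (h' : n • Point.some x y h = 0) :
    A.valuation N.c < A.valuation (x - N.r) ^ 2 ∧
      ∃ i : ℕ, 0 < i ∧ 2 * i < n ∧ A.valuation (x - N.r) ^ n = A.valuation N.c ^ i := by
  set g := compVal A.valuation N.a N.c (x - N.r) (y - N.t) with hgdef
  have hg : g ≠ 0 := NearNode.compVal_ne_zero N.par
  -- The component of `n P = 0` is trivial.
  have hH : InH A.valuation N.c (g ^ n) := by
    rw [← N.cls_eq_zero_iff (pow_ne_zero _ hg), N.cls_pow hg]
    have := congr_arg N.compHom h'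
    rw [map_nsmul, map_zero, compHom_apply, N.comp_of_atNode hP] at this
    exact this
  have hc0 : 0 < A.valuation N.c := zero_lt_iff.mpr N.par.vc_ne_zero
  have hc1 : A.valuation N.c < 1 := N.par.hc
  have hinj : Function.Injective fun k : ℤ => A.valuation N.c ^ k :=
    zpow_right_injective₀ hc0 hc1.ne
  have hn0 : n ≠ 0 := hn.pos.ne'
  -- So the valuation of `x - r` is a fraction `i / n` of that of `c`, with `2i < n`.
  have main : A.valuation N.c < A.valuation (x - N.r) ^ 2 →
      ∀ k : ℤ, (A.valuation (x - N.r) ^ 2) ^ n = (A.valuation N.c ^ 2) ^ k →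
      ∃ i : ℕ, 0 < i ∧ 2 * i < n ∧ A.valuation (x - N.r) ^ n = A.valuation N.c ^ i := by
    intro hlt k hk
    have hkpos : 0 < k := by
      by_contra hneg
      rw [not_lt] at hneg
      have := zpow_le_zpow_right_of_le_one₀ (pow_pos hc0 2) (pow_le_one₀ zero_le hc1.le) hneg
      rw [zpow_zero, ← hk] at this
      exact absurd this (not_le.mpr
        (pow_lt_one₀ zero_le (pow_lt_one₀ zero_le hP.1 two_ne_zero) hn0))
    obtain ⟨i, rfl⟩ := Int.eq_ofNat_of_zero_le hkpos.le
    rw [zpow_natCast] at hk
    refine ⟨i, by exact_mod_cast hkpos, ?_, ?_⟩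
    · by_contra hge
      rw [not_lt] at hge
      have h1 : A.valuation N.c ^ n < (A.valuation (x - N.r) ^ 2) ^ n :=
        pow_lt_pow_left₀ hlt zero_le hn0
      rw [hk, ← pow_mul] at h1
      exact absurd (pow_le_pow_of_le_one zero_le hc1.le hge) (not_le.mpr h1)
    · refine (pow_left_inj₀ zero_le zero_le two_ne_zero).mp ?_
      rw [← pow_mul, mul_comm n, pow_mul, hk, ← pow_mul, ← pow_mul, mul_comm]
  obtain ⟨k, hk⟩ := hH
  rw [hgdef, compVal] at hk
  split_ifs at hk with h1 h2
  · exact ⟨h1, main h1 k hk⟩
  · refine ⟨h1, main h1 (-k) ?_⟩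
    rw [zpow_neg, ← hk, inv_pow, inv_inv]
  · exfalso
    rw [← zpow_natCast, ← zpow_natCast _ 2, ← zpow_mul] at hk
    have := hinj hk
    obtain ⟨j, hj⟩ := hn
    omega

omit [DecidableEq L] [DecidableEq (IsLocalRing.ResidueField ↥A)] in
/-- A point with a prescribed component. -/
lemma exists_point [IsAlgClosed L] (N : Node A W V) (hΔ : W.Δ ≠ 0) {z : L}
    (hz : A.valuation z < 1) (hcz : A.valuation N.c < A.valuation z ^ 2) :
    ∃ (w : L) (h : W.Nonsingular (N.r + z) (N.t + z * (N.a + w))),
      A.valuation w < 1 ∧ w ^ 2 + (N.a - N.b) * w = z + N.c / z ^ 2 ∧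
      N.comp (Point.some _ _ h) = N.cls (A.valuation z ^ 2) := by
  have hz0 : z ≠ 0 := NearNode.X_ne_zero hcz
  have hzpos : 0 < A.valuation z ^ 2 :=
    pow_pos (zero_lt_iff.mpr ((A.valuation.ne_zero_iff).mpr hz0)) 2
  have he : A.valuation (z + N.c / z ^ 2) < 1 :=
    A.valuation.map_add_lt hz (by rw [map_div₀, map_pow]; exact (div_lt_one₀ hzpos).mpr hcz)
  have heA : z + N.c / z ^ 2 ∈ A := (A.valuation_le_one_iff _).mp he.le
  have ma := (A.valuation_le_one_iff _).mp N.par.ha
  have mb := (A.valuation_le_one_iff _).mp N.par.hb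
  obtain ⟨w, hw, hw0⟩ := exists_quadratic_root (c₂ := (1 : A))
    (c₁ := ⟨N.a - N.b, sub_mem ma mb⟩) (c₀ := -⟨z + N.c / z ^ 2, heA⟩) (T := 0)
    (by
      rw [map_neg, ← res_of_mem heA, res_eq_zero (by rwa [ValuationSubring.mem_nonunits_iff])]
      ring)
    (by
      rw [mul_zero, zero_add, ← res_of_mem (sub_mem ma mb), res_sub ma mb]
      exact N.resData.sep)
  have hwL := congr_arg A.subtype hw
  simp only [A.subtype_apply, AddMemClass.coe_add, MulMemClass.coe_mul,
    NegMemClass.coe_neg, SubmonoidClass.coe_pow, ZeroMemClass.coe_zero, one_mul] at hwL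
  have hwv : A.valuation (w : L) < 1 := by
    rw [← ValuationSubring.mem_nonunits_iff, ← res_eq_zero_iff w.2, res_coe]
    exact hw0
  have hw' : (w : L) ^ 2 + (N.a - N.b) * w = z + N.c / z ^ 2 := by linear_combination hwL
  have heq : W.Equation (N.r + z) (N.t + z * (N.a + w)) := by
    rw [N.equation_shift]
    field_simp at hw'
    linear_combination hw'
  have hns := (equation_iff_nonsingular_of_Δ_ne_zero hΔ).mp heq
  refine ⟨w, hns, hwv, hw', ?_⟩
  have hat : N.AtNode (Point.some _ _ hns) := by
    rw [atNode_some, add_sub_cancel_left, add_sub_cancel_left, map_mul]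
    refine ⟨hz, ?_⟩
    exact (mul_le_of_le_one_right zero_le
      ((A.valuation_le_one_iff _).mpr (add_mem ma w.2))).trans_lt hz
  rw [N.comp_of_atNode hat, add_sub_cancel_left, add_sub_cancel_left, compVal, if_pos hcz, if_pos]
  rw [show z * (N.a + w) - N.a * z = z * w by ring, map_mul]
  exact mul_lt_of_lt_one_right (zero_lt_iff.mpr ((A.valuation.ne_zero_iff).mpr hz0)) hwv

end Component

section Galois

universe r s v

variable {R : Type r} {S : Type s} {L : Type v} [CommRing R] [Field S] [Field L]
  [Algebra R S] [Algebra R L] [Algebra S L] [IsScalarTower R S L]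
  [DecidableEq L] [Algebra.IsAlgebraic S L]
  {W' : Affine R} {A : ValuationSubring L} {V : Affine (IsLocalRing.ResidueField A)}
  [DecidableEq (IsLocalRing.ResidueField A)] {σ : L ≃ₐ[S] L}

omit [Algebra.IsAlgebraic S L] in
/-- For `n` a unit, a point `P` of nonsingular reduction with `n P` fixed by `σ` in inertia is fixed
by `σ`. -/
lemma smul_eq_self_of_nsmul_fixed {h : ReducesTo A (W'⁄L) V} (hσ : σ • A = A)
    (hin : ∀ x ∈ A, res A (σ x) = res A x) {n : ℕ} (hn : A.valuation (n : L) = 1)
    {P : (W'⁄L).Point} (hP : InE0 A V P) (h' : σ • (n • P) = n • P) : σ • P = P := by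
  have hmem := h.sub_mem_E1 ((h.inE0_smul_iff (φ := RingHom.id _) hσ hin).mpr hP) hP
    (h.redFun_smul_inertia hσ hin P)
  refine sub_eq_zero.mp (h.eq_zero_of_nsmul_eq_zero hn hmem ?_)
  rw [nsmul_sub, sub_eq_zero]
  exact ((DistribSMul.toAddMonoidHom _ σ).map_nsmul n P).symm.trans h'

variable [IsAlgClosed L]

/-- If `v c` is an `n`-th power of the valuation of a `σ`-fixed element, then `σ` in inertia fixes
all the `n`-torsion. -/
lemma smul_eq_self_of_root (N : Node A (W'⁄L) V) (hΔ : (W'⁄L).Δ ≠ 0) (hσ : σ • A = A)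
    (hin : ∀ x ∈ A, res A (σ x) = res A x) {n : ℕ} (hodd : Odd n)
    (hn : A.valuation (n : L) = 1) {z : L} (hz : σ z = z)
    (hzc : A.valuation z ^ n = A.valuation N.c)
    {P : (W'⁄L).Point} (h' : n • P = 0) : σ • P = P := by
  by_cases hP0 : InE0 A V P
  · exact N.red.smul_eq_self_of_inertia hσ hin hn hP0 h'
  match P with
  | .zero => exact absurd trivial hP0
  | .some x y h =>
    have hP := (N.not_inE0_iff _).mp hP0
    obtain ⟨hbig, i, hi0, -, hi⟩ := N.valuation_pow_of_nsmul hodd hP h'
    -- Build a fixed point `Q` in the same component or its opposite.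
    have hX : A.valuation (x - N.r) = A.valuation (z ^ i) := by
      refine (pow_left_inj₀ zero_le zero_le hodd.pos.ne').mp ?_
      rw [hi, map_pow, ← pow_mul, mul_comm, pow_mul, hzc]
    have hz1 : A.valuation (z ^ i) < 1 := hX ▸ hP.1
    obtain ⟨w, hns, hw1, hw, hQ⟩ := N.exists_point hΔ hz1 (hX ▸ hbig)
    set Q : (W'⁄L).Point := Point.some _ _ hns with hQdef
    obtain ⟨hr, ht, ha⟩ := N.map_node_eq hσ hin
    have hb : σ N.b = N.b := by
      have : σ (N.a + N.b) = N.a + N.b := by
        rw [N.sum_ab, map_neg]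
        simp [Affine.baseChange, WeierstrassCurve.baseChange, map_coeff]
      rw [map_add, ha] at this
      exact add_left_cancel this
    have hc : σ N.c = N.c := by
      simp [Node.c, nodeConst, Affine.baseChange, WeierstrassCurve.baseChange, map_coeff, hr, ht]
    have hzi : σ (z ^ i) = z ^ i := by rw [map_pow, hz]
    have hσw : σ w = w := by
      have e := congr_arg σ hw
      simp only [map_add, map_mul, map_pow, map_sub, map_div₀, ha, hb, hc, hz] at e
      rw [← hw] at e
      have e' : (σ w - w) * (σ w + w + (N.a - N.b)) = 0 := by linear_combination e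
      refine sub_eq_zero.mp ((mul_eq_zero.mp e').resolve_right fun hcon => ?_)
      have hvσ : A.valuation (σ w) < 1 := by rwa [valuation_map_eq hσ]
      have := A.valuation.map_add_eq_of_lt_right (y := N.a - N.b)
        (lt_of_lt_of_eq (A.valuation.map_add_lt hvσ hw1) N.par.hab.symm)
      rw [hcon, N.par.hab, map_zero] at this
      exact zero_ne_one this
    have hQfix : σ • Q = Q := by
      obtain ⟨h'', e⟩ := smul_some (σ := σ) hns
      rw [hQdef, e]
      exact some_eq_some _ _ (by rw [map_add, hr, hzi])
        (by simp [map_add, map_mul, ht, ha, hz, hσw])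
    have hcls : N.comp (Point.some x y h) = N.comp Q ∨ N.comp (Point.some x y h) = N.comp (-Q) := by
      rw [N.comp_neg, N.comp_of_atNode hP, hQ, compVal, if_pos hbig, hX]
      have hne : A.valuation (z ^ i) ^ 2 ≠ 0 := by
        rw [← hX]; exact (lt_of_le_of_lt zero_le hbig).ne'
      split_ifs
      · exact Or.inl rfl
      · refine Or.inr (eq_neg_of_add_eq_zero_left ?_)
        rw [← N.cls_mul (inv_ne_zero hne) hne, inv_mul_cancel₀ hne,
          N.cls_eq_zero_iff one_ne_zero]
        exact InH.one
    -- The difference lies in `E₀` with fixed multiple by `n`, hence is fixed.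
    have key : ∀ Q' : (W'⁄L).Point, σ • Q' = Q' → N.comp (Point.some x y h) = N.comp Q' →
        σ • Point.some x y h = Point.some x y h := by
      intro Q' hfix he
      have hR : InE0 A V (Point.some x y h - Q') := by
        rw [← N.comp_eq_zero_iff, ← N.compHom_apply, map_sub, N.compHom_apply, N.compHom_apply,
          he, sub_self]
      have hRfix := smul_eq_self_of_nsmul_fixed (h := N.red) hσ hin hn hR (by
        rw [nsmul_sub, h', zero_sub, smul_neg,
          show σ • (n • Q') = n • (σ • Q') from (DistribSMul.toAddMonoidHom _ σ).map_nsmul n Q',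
          hfix])
      rw [smul_sub, hfix, sub_left_inj] at hRfix
      exact hRfix
    rcases hcls with he | he
    · exact key Q hQfix he
    · exact key (-Q) (by rw [smul_neg, hQfix]) he

end Galois

end Node

end Fermat.Agent.EC.Multiplicative
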